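import Fermat.Agent.GR.S.FF.L1

/-!
# S15-RED (FIN), step 5: counting
-/

set_option autoImplicit false

noncomputable section

namespace Fermat.Agent.S15.Red

open Fermat.Agent.GR.S

/-- finitely many effective divisors of bounded degree with support in a finite set. -/
theorem finite_divisors {S : Type*} (T : Set S) (hT : T.Finite) (B : ℕ) :
    {D : S →₀ ℤ | (∀ s, 0 ≤ D s) ∧ (∀ s ∈ D.support, s ∈ T) ∧ l1 D ≤ B}.Finite := by
  classical
  refine Set.Finite.subset
    (Finset.finite_toSet (hT.toFinset.finsupp fun _ => Finset.Icc (0 : ℤ) B)) ?_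
  rintro D ⟨h0, hs, hB⟩
  rw [Finset.mem_coe, Finset.mem_finsupp_iff]
  refine ⟨fun s h => hT.mem_toFinset.2 (hs s h), fun s _ => ?_⟩
  rw [Finset.mem_Icc]
  refine ⟨h0 s, ?_⟩
  by_cases hsD : s ∈ D.support
  · have h1 : (D s).natAbs ≤ l1 D :=
      Finset.single_le_sum (f := fun s => (D s).natAbs) (fun _ _ => Nat.zero_le _) hsD
    have h2 := h0 s
    omega
  · rw [Finsupp.notMem_support_iff.1 hsD]
    positivity

/-- pigeonhole: a subgroup `W` with an invariant `c` with finitely many values which detects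
congruence modulo `K` satisfies `m W ⊆ K`. -/
theorem exists_exponent_of_finite {J X : Type*} [AddCommGroup J] (K W : AddSubgroup J) (T : Set X)
    (hT : T.Finite) (c : J → X) (hc : ∀ w ∈ W, c w ∈ T)
    (hK : ∀ w ∈ W, ∀ w' ∈ W, c w = c w' → w - w' ∈ K) :
    ∃ m : ℕ, 0 < m ∧ ∀ w ∈ W, m • w ∈ K := by
  classical
  refine ⟨(hT.toFinset.card).factorial, Nat.factorial_pos _, fun w hw => ?_⟩
  set n := hT.toFinset.card with hn
  -- pigeonhole on `0, …, n`
  have hmaps : ∀ i ∈ Finset.range (n + 1), c (i • w) ∈ hT.toFinset := fun i _ =>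
    hT.mem_toFinset.2 (hc _ (W.nsmul_mem hw i))
  obtain ⟨i, hi, j, hj, hij, hcij⟩ :=
    Finset.exists_ne_map_eq_of_card_lt_of_maps_to (by rw [Finset.card_range]; omega) hmaps
  rw [Finset.mem_range] at hi hj
  -- wlog `j < i`
  have key : ∀ i j : ℕ, i < n + 1 → j < i → c (i • w) = c (j • w) → n.factorial • w ∈ K := by
    intro i j hi hji hcij
    have h1 := hK _ (W.nsmul_mem hw i) _ (W.nsmul_mem hw j) hcij
    have h2 : i • w - j • w = (i - j) • w := by
      rw [sub_nsmul _ hji.le, sub_eq_add_neg]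
    rw [h2] at h1
    obtain ⟨k, hk⟩ : (i - j) ∣ n.factorial := Nat.dvd_factorial (by omega) (by omega)
    rw [hk, mul_nsmul]
    exact K.nsmul_mem h1 k
  rcases lt_or_gt_of_ne hij with h | h
  · exact key j i hj h hcij.symm
  · exact key i j hi h hcij

end Fermat.Agent.S15.Red
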