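import Fermat.Agent.S15.Red.Fin.Classes
import Fermat.Agent.GR.S.K1
import Fermat.Agent.GR.S.R.Semi

/-!
# S15-RED (FIN), step 4: the points of a Frobenius-stable effective divisor are special
-/

set_option autoImplicit false
set_option synthInstance.maxHeartbeats 400000

noncomputable section

namespace Fermat.Agent.S15.Red

open AlgebraicCurve ModularCurve Fermat.Agent.GR Fermat.Agent.GR.E Fermat.Agent.GR.S
  Fermat.Agent.S17.FF Fermat.Agent.GR.S.R

local notation "𝔽" => modularFunctionFieldBar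

/-- a point of the support of a `g`-stable divisor with at most `B` points is fixed by `g ^ B!`. -/
theorem pow_factorial_smul_eq {K F : Type*} [Field K] [Field F] [Algebra K F]
    (g : SemilinearAut K F) (D : Divisor K F) (hst : g • D = D) (B : ℕ)
    (hB : D.support.card ≤ B) {P : Place K F} (hP : P ∈ D.support) :
    g ^ B.factorial • P = P := by
  classical
  have hstep : ∀ Q : Place K F, Q ∈ D.support → g • Q ∈ D.support := by
    intro Q hQ
    rw [Finsupp.mem_support_iff] at hQ ⊢
    have := SemilinearAut.divisor_smul_apply_smul g D Q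
    rw [hst] at this
    rwa [this]
  have hall : ∀ i : ℕ, g ^ i • P ∈ D.support := by
    intro i
    induction i with
    | zero => rwa [pow_zero, one_smul]
    | succ i ih =>
      rw [pow_succ', mul_smul]
      exact hstep _ ih
  obtain ⟨i, hi, j, hj, hij, hEq⟩ := Finset.exists_ne_map_eq_of_card_lt_of_maps_to
    (s := Finset.range (B + 1)) (t := D.support) (by rw [Finset.card_range]; omega)
    (f := fun i => g ^ i • P) (fun i _ => by
      rw [Finset.mem_coe]
      exact hall i)
  rw [Finset.mem_range] at hi hj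
  have key : ∀ i j : ℕ, i < j → j < B + 1 → g ^ i • P = g ^ j • P → g ^ B.factorial • P = P := by
    intro i j hij hj hEq
    have h1 : g ^ (j - i) • P = P := by
      have e : g ^ j = g ^ i * g ^ (j - i) := by rw [← pow_add, Nat.add_sub_cancel' hij.le]
      rw [e, mul_smul] at hEq
      exact (smul_left_cancel _ hEq).symm
    obtain ⟨d, hd⟩ := Nat.dvd_factorial (Nat.sub_pos_of_lt hij) (by omega : j - i ≤ B)
    rw [hd, pow_mul]
    clear hd
    induction d with
    | zero => rw [pow_zero, one_smul]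
    | succ d ih => rw [pow_succ, mul_smul, h1, ih]
  rcases lt_or_gt_of_ne hij with h | h
  · exact key i j h hj hEq
  · exact key j i h hi hEq.symm

/-- iterating the Frobenius congruence. -/
theorem frob_pow_sub_mem {A : ValuationSubring Kb} {q : ℕ} {σ : Kb ≃ₐ[ℚ] Kb}
    (hσ : A.IsFrobeniusAt σ q) (f : ℕ) (a : Kb) (ha : a ∈ A) :
    (σ ^ f) a - a ^ (q ^ f) ∈ A.nonunits := by
  have key : ∀ (f : ℕ) (x : A), ∃ y : A, (y : Kb) = (σ ^ f) (x : Kb) ∧
      IsLocalRing.residue A y = IsLocalRing.residue A x ^ (q ^ f) := by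
    intro f x
    induction f with
    | zero => exact ⟨x, rfl, by rw [pow_zero, pow_one]⟩
    | succ f ih =>
      obtain ⟨y, hy1, hy2⟩ := ih
      refine ⟨(⟨σ, hσ.mem_decompositionSubgroup⟩ : A.decompositionSubgroup ℚ) • y, ?_, ?_⟩
      · rw [pow_succ', AlgEquiv.mul_apply, ← hy1]
        rfl
      · have h2 := hσ.smul_residue_eq (IsLocalRing.residue A y)
        rw [← IsLocalRing.ResidueField.residue_smul] at h2
        rw [h2, hy2, ← pow_mul, ← pow_succ]
  obtain ⟨y, hy1, hy2⟩ := key f ⟨a, ha⟩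
  have h : IsLocalRing.residue A (y - (⟨a, ha⟩ : A) ^ (q ^ f)) = 0 := by
    rw [map_sub, map_pow, hy2, sub_self]
  have h' := (Classes_nu_iff A _).2 h
  have e : ((y - (⟨a, ha⟩ : A) ^ (q ^ f) : A) : Kb) = (σ ^ f) a - a ^ (q ^ f) := by
    rw [← hy1]
    rfl
  rwa [e] at h'

/-- the function `j` at level `N'`. -/
def jB (N' : ℕ) : 𝔽 N' := ⟨jqModC Kb, by rw [bar_eq_FF]; exact jqModC_mem_full Kb N'⟩

theorem special_of_pow_smul_eq {A : ValuationSubring Kb} {q : ℕ} {σ : Kb ≃ₐ[ℚ] Kb}
    (hσ : A.IsFrobeniusAt σ q) (N' : ℕ) [NeZero N'] (f : ℕ) (P : Place Kb (𝔽 N'))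
    (hP : gq N' σ ^ f • P = P) : Special A (q ^ f) (jB N') P := by
  by_cases h1 : P.ord (jB N') < 0
  · exact Or.inl h1
  by_cases h2 : val P (jB N') ∈ A
  · right
    right
    have hg : gq N' σ ^ f = gq N' (σ ^ f) :=
      (map_pow (arithmeticGalois (modularFunctionFieldFull N')) σ f).symm
    have hj : gq N' (σ ^ f) • jB N' = jB N' := by
      apply Subtype.ext
      rw [coe_gq_smul]
      exact coeffMap_jqModC _
    have h3 := val_smul (gq N' (σ ^ f)) P (jB N')
    rw [hj, ← hg, hP, hg] at h3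
    have h4 : SemilinearAut.baseAut (gq N' (σ ^ f)) (val P (jB N')) = (σ ^ f) (val P (jB N')) := rfl
    rw [h4] at h3
    have h5 := frob_pow_sub_mem hσ f _ h2
    rw [← h3] at h5
    have := nu_neg h5
    rwa [neg_sub] at this
  · exact Or.inr (Or.inl h2)

end Fermat.Agent.S15.Red
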