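import Fermat.Agent.S17.WMW.Rat

/-!
# S15-RED (FIN), step 1: a class fixed by a set `H` of Galois automorphisms is represented by
`E - m ∞` with `E` effective, `H`-stable, of degree `m ≤ g`
-/

set_option autoImplicit false
set_option synthInstance.maxHeartbeats 400000

noncomputable section

namespace Fermat.Agent.S15.Red

open AlgebraicCurve ModularCurve Fermat.Agent.S17 Fermat.Agent.S17.WMW

section abstract

variable {K F : Type*} [Field K] [Field F] [Algebra K F] [IsAlgClosed K] [CharZero K] [FF.IsFF K F]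

/-- `S17.WMW.exists_reduced` with the bound `m ≤ g`. -/
theorem exists_reduced_le (oo : Place K F) (D : Divisor K F) (hD : Divisor.degree D = 0) :
    ∃ (m : ℕ) (E : Divisor K F), m ≤ FF.genus K F ∧ 0 ≤ E ∧ FF.ell E = 1 ∧
      Divisor.IsPrincipal (E - (D + Finsupp.single oo (m : ℤ))) := by
  have hdeg : ∀ m : ℤ, Divisor.degree (D + Finsupp.single oo m) = Divisor.degree D + m := by
    intro m
    rw [map_add, FF.degree_single']
  have hgen : 0 < FF.ell (D + Finsupp.single oo (FF.genus K F : ℤ)) := by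
    rw [FF.ell_pos_iff]
    exact FF.exists_ne_zero_mem_LSpace (by rw [hdeg, hD]; linarith)
  have hlow : ∀ z : ℤ, 0 < FF.ell (D + Finsupp.single oo z) → 0 ≤ z := by
    intro z hz
    by_contra hlt
    rw [not_le] at hlt
    have : FF.ell (D + Finsupp.single oo z) = 0 :=
      FF.ell_eq_zero_of_degree_neg (by rw [hdeg, hD]; linarith)
    omega
  obtain ⟨m, hm, hmin⟩ := Int.exists_least_of_bdd
    (P := fun m : ℤ => 0 < FF.ell (D + Finsupp.single oo m))
    ⟨0, hlow⟩ ⟨(FF.genus K F : ℤ), hgen⟩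
  have hm0 : 0 ≤ m := hlow m hm
  have hmg : m ≤ (FF.genus K F : ℤ) := hmin _ hgen
  have h0 : FF.ell (D + Finsupp.single oo m - Finsupp.single oo 1) = 0 := by
    have e : D + Finsupp.single oo m - Finsupp.single oo 1 = D + Finsupp.single oo (m - 1) := by
      rw [add_sub_assoc, ← Finsupp.single_sub]
    rw [e]
    by_contra hne
    have := hmin (m - 1) (Nat.pos_of_ne_zero hne)
    omega
  have h1 : FF.ell (D + Finsupp.single oo m) = 1 := FF.ell_eq_one_of_minimal _ oo hm h0
  obtain ⟨f, hf, hf0⟩ := FF.ell_pos_iff.mp hm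
  have hmm : ((m.toNat : ℕ) : ℤ) = m := Int.toNat_of_nonneg hm0
  refine ⟨m.toNat, D + Finsupp.single oo m + FF.divf f, by omega, ?_, ?_, ?_⟩
  · rw [add_comm]
    exact (FF.mem_LSpace_of_ne_zero hf0).mp hf
  · rw [FF.ell_add_divf _ hf0, h1]
  · rw [hmm, add_sub_cancel_left]
    exact Rat_isPrincipal_divf hf0

end abstract

/-- the stable reduced representative. -/
theorem exists_stable_rep (N : ℕ) [NeZero N] : ∃ g : ℕ, ∀ (H : Set GQ) (x : JZero N),
    (∀ σ ∈ H, σ • x = x) →
    ∃ (m : ℕ) (E : Divisor Qb (FB N)), m ≤ g ∧ 0 ≤ E ∧ Divisor.degree E = m ∧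
      (∀ σ ∈ H, gal N σ • E = E) ∧
      ∃ hdeg : E - Finsupp.single (oo N) (m : ℤ) ∈ Divisor.degZero (K := Qb) (F := FB N),
        (Pic0.mk ⟨E - Finsupp.single (oo N) (m : ℤ), hdeg⟩ : JZero N) = x := by
  have hFF : FF.IsFF Qb (FB N) := isFF_bar N
  refine ⟨FF.genus Qb (FB N), fun H x hx => ?_⟩
  obtain ⟨D, rfl⟩ := Pic0.mk_surjective x
  obtain ⟨m, E, hmg, hE0, hE1, hEp⟩ := exists_reduced_le (oo N) (D : Divisor Qb (FB N)) D.2
  have hstab : ∀ σ ∈ H, gal N σ • E = E := by
    intro σ hσ
    apply eq_of_isPrincipal_sub hE0 _ hE1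
    · have h1 : Divisor.IsPrincipal (gal N σ • (E - ((D : Divisor Qb (FB N)) +
          Finsupp.single (oo N) (m : ℤ)))) := SemilinearAut.smul_mem_principal (gal N σ) hEp
      have h2 : Divisor.IsPrincipal (gal N σ • (D : Divisor Qb (FB N)) -
          (D : Divisor Qb (FB N))) := by
        have := hx σ hσ
        rw [smul_mk, mk_eq_mk_iff] at this
        exact this
      have h3 := (Divisor.principal (K := Qb) (F := FB N)).sub_mem
        ((Divisor.principal (K := Qb) (F := FB N)).add_mem h1 h2) hEp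
      have e : gal N σ • (E - ((D : Divisor Qb (FB N)) + Finsupp.single (oo N) (m : ℤ))) +
          (gal N σ • (D : Divisor Qb (FB N)) - (D : Divisor Qb (FB N))) -
          (E - ((D : Divisor Qb (FB N)) + Finsupp.single (oo N) (m : ℤ))) = gal N σ • E - E := by
        rw [smul_sub, smul_add, SemilinearAut.smul_single, gal_smul_oo]
        abel
      rw [e] at h3
      exact h3
    · intro w
      rw [SemilinearAut.divisor_smul_apply]
      exact hE0 _
  have hdeg : Divisor.degree (E - Finsupp.single (oo N) (m : ℤ)) = 0 := by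
    have h1 := Rat_degree_of_isPrincipal hEp
    have h2 : Divisor.degree (D : Divisor Qb (FB N)) = 0 := D.2
    have e : E - Finsupp.single (oo N) (m : ℤ) =
        (E - ((D : Divisor Qb (FB N)) + Finsupp.single (oo N) (m : ℤ))) +
          (D : Divisor Qb (FB N)) := by
      abel
    rw [e, map_add, h1, h2, add_zero]
  have hdegE : Divisor.degree E = m := by
    rw [map_sub, FF.degree_single'] at hdeg
    linarith
  refine ⟨m, E, hmg, hE0, hdegE, hstab, hdeg, ?_⟩
  rw [mk_eq_mk_iff]
  have e : E - Finsupp.single (oo N) (m : ℤ) - (D : Divisor Qb (FB N)) =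
      E - ((D : Divisor Qb (FB N)) + Finsupp.single (oo N) (m : ℤ)) := by abel
  show Divisor.IsPrincipal (E - Finsupp.single (oo N) (m : ℤ) - (D : Divisor Qb (FB N)))
  rw [e]
  exact hEp

end Fermat.Agent.S15.Red
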