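import Fermat.Agent.S15.Red.Iface
import Fermat.Agent.S15.Red.Fin.Reduced
import Fermat.Agent.S15.Red.Fin.Period
import Fermat.Agent.S15.Red.Fin.Count

/-!
# S15-RED (FIN): `m • J₀(N)^{D_A} ⊆ K1q N q A`
-/

set_option autoImplicit false
set_option synthInstance.maxHeartbeats 400000

noncomputable section

namespace Fermat.Agent.S15.Red

open AlgebraicCurve ModularCurve Fermat.Agent.GR Fermat.Agent.GR.E Fermat.Agent.GR.S
  Fermat.Agent.S17.FF Fermat.Agent.GR.S.R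

local notation "𝔽" => modularFunctionFieldBar

section General

variable {N N' : ℕ} [NeZero N] [NeZero N'] (hNN' : N ∣ N') {S : Type} (r : Place Kb (𝔽 N') → S)

/-- the pull back of a divisor to level `N'`. -/
def pb : Divisor Kb (𝔽 N) →+ Divisor Kb (𝔽 N') :=
  Divisor.pullbackAlong (inclBar hNN') (isIntegral_along' _)

theorem Red_eq_mapDomain_pb (D : Divisor Kb (𝔽 N)) :
    Red hNN' r D = Finsupp.mapDomain r (pb hNN' D) := rfl

theorem pb_nonneg {D : Divisor Kb (𝔽 N)} (hD : 0 ≤ D) : 0 ≤ pb hNN' D := by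
  intro w
  show (0 : ℤ) ≤ Divisor.pullbackAlong (inclBar hNN') (isIntegral_along' _) D w
  rw [Divisor.pullbackAlong_apply]
  exact mul_nonneg (Int.natCast_nonneg _) (hD _)

theorem pb_smul (σ : Kb ≃ₐ[ℚ] Kb) (D : Divisor Kb (𝔽 N)) :
    pb hNN' (gq N σ • D) = gq N' σ • pb hNN' D :=
  pullbackAlong_smul _ _ (gq N σ) (gq N' σ) (intertwines_inclBar hNN' σ) D

theorem card_support_le_l1 {T : Type*} (D : T →₀ ℤ) : D.support.card ≤ l1 D := by
  rw [l1, Finsupp.sum, Finset.card_eq_sum_ones]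
  refine Finset.sum_le_sum fun s hs => ?_
  exact Int.natAbs_pos.2 (Finsupp.mem_support_iff.1 hs)

theorem l1_eq_of_nonneg {D : Divisor Kb (𝔽 N)} (hD : 0 ≤ D) {m : ℕ}
    (hdeg : Divisor.degree D = m) : l1 D = m := by
  have h1 := l1_eq_sum_of_nonneg (E := D) (fun s => hD s)
  rw [← degree_eq_sum, hdeg] at h1
  exact_mod_cast h1

theorem mapDomain_nonneg {T T' : Type*} (f : T → T') {D : T →₀ ℤ} (hD : 0 ≤ D) (s : T') :
    0 ≤ Finsupp.mapDomain f D s := by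
  classical
  rw [Finsupp.mapDomain, Finsupp.sum_apply, Finsupp.sum]
  refine Finset.sum_nonneg fun a _ => ?_
  rw [Finsupp.single_apply]
  split_ifs
  · exact hD a
  · exact le_rfl

theorem exists_of_mem_support_mapDomain {T T' : Type*} (f : T → T') {D : T →₀ ℤ} {s : T'}
    (hs : s ∈ (Finsupp.mapDomain f D).support) : ∃ P ∈ D.support, f P = s := by
  classical
  have h1 := Finsupp.mapDomain_support hs
  rw [Finset.mem_image] at h1
  exact h1

variable {A : ValuationSubring Kb} (hr : IsRed A (𝔽 N') r)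

include hr in
/-- the reductions of the effective divisors of degree `≤ g` which are stable under a Frobenius
element form a finite set. -/
theorem finite_Red_stable {q : ℕ} (hq : q.Prime) {σ : Kb ≃ₐ[ℚ] Kb} (hσ : A.IsFrobeniusAt σ q)
    (g : ℕ) :
    {R : S →₀ ℤ | ∃ (m : ℕ) (E : Divisor Kb (𝔽 N)), m ≤ g ∧ 0 ≤ E ∧ Divisor.degree E = m ∧
      gq N σ • E = E ∧ Red hNN' r E = R}.Finite := by
  have hf1 : 1 < q ^ (finrankAlong Kb (inclBar hNN') * g).factorial :=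
    Nat.one_lt_pow (Nat.factorial_pos _).ne' hq.one_lt
  have hSig := finite_classes hr (jB N') rfl _ hf1
  refine (finite_divisors _ hSig (finrankAlong Kb (inclBar hNN') * g)).subset ?_
  rintro R ⟨m, E, hm, hE, hdeg, hst, rfl⟩
  have hE' : 0 ≤ pb hNN' E := pb_nonneg hNN' hE
  have hst' : gq N' σ • pb hNN' E = pb hNN' E := by
    rw [← pb_smul, hst]
  have hl1 : l1 (pb hNN' E) ≤ finrankAlong Kb (inclBar hNN') * g := by
    refine (l1_pullbackAlong_le _ _ E).trans ?_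
    rw [l1_eq_of_nonneg hE hdeg]
    exact Nat.mul_le_mul_left _ hm
  refine ⟨fun s => ?_, fun s hs => ?_, ?_⟩
  · rw [Red_eq_mapDomain_pb]
    exact mapDomain_nonneg r hE' s
  · rw [Red_eq_mapDomain_pb] at hs
    obtain ⟨P, hP, rfl⟩ := exists_of_mem_support_mapDomain r hs
    exact ⟨P, special_of_pow_smul_eq hσ N' _ P
      (pow_factorial_smul_eq (gq N' σ) (pb hNN' E) hst' _
        ((card_support_le_l1 _).trans hl1) hP), rfl⟩
  · rw [Red_eq_mapDomain_pb]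
    exact (l1_mapDomain_le _ _).trans hl1

include hr in
/-- (FIN) for `GR.S.K1`. -/
theorem fin_K1 {q : ℕ} (hq : q.Prime) (hA : A.LiesOverPrime q) :
    ∃ m : ℕ, 0 < m ∧ ∀ w : JZero N, (∀ σ ∈ A.decompositionSubgroup ℚ, σ • w = w) →
      m • w ∈ K1 hNN' r := by
  obtain ⟨σ₀, hσ₀⟩ := Fermat.Agent.Lib.Frobenius.exists_isFrobeniusAt_of_liesOverPrime A hq hA
  obtain ⟨g, hg⟩ := exists_stable_rep N
  let W : AddSubgroup (JZero N) :=
    { carrier := {w | ∀ σ ∈ A.decompositionSubgroup ℚ, σ • w = w}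
      zero_mem' := fun σ _ => smul_zero σ
      add_mem' := fun {a b} ha hb σ hσ => by rw [smul_add, ha σ hσ, hb σ hσ]
      neg_mem' := fun {a} ha σ hσ => by rw [smul_neg, ha σ hσ] }
  have hrep : ∀ w : JZero N, ∃ (m : ℕ) (E : Divisor Kb (𝔽 N)), w ∈ W →
      (m ≤ g ∧ 0 ≤ E ∧ Divisor.degree E = m ∧ gq N σ₀ • E = E ∧
        ∃ hdeg : E - Finsupp.single (Fermat.Agent.S17.WMW.oo N) (m : ℤ) ∈
            Divisor.degZero (K := Kb) (F := 𝔽 N),
          (Pic0.mk ⟨E - Finsupp.single (Fermat.Agent.S17.WMW.oo N) (m : ℤ), hdeg⟩ : JZero N)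
            = w) := by
    intro w
    by_cases hw : w ∈ W
    · obtain ⟨m, E, h1, h2, h3, h4, h5⟩ := hg {σ | σ ∈ A.decompositionSubgroup ℚ} w hw
      exact ⟨m, E, fun _ => ⟨h1, h2, h3, h4 σ₀ hσ₀.mem_decompositionSubgroup, h5⟩⟩
    · exact ⟨0, 0, fun h => absurd h hw⟩
  choose mm EE hmE using hrep
  have hcT : ∀ w ∈ W, (fun w => (Red hNN' r (EE w), mm w)) w ∈
      {R : S →₀ ℤ | ∃ (m : ℕ) (E : Divisor Kb (𝔽 N)), m ≤ g ∧ 0 ≤ E ∧ Divisor.degree E = m ∧
        gq N σ₀ • E = E ∧ Red hNN' r E = R} ×ˢ {m : ℕ | m ≤ g} := by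
    intro w hw
    obtain ⟨h1, h2, h3, h4, h5⟩ := hmE w hw
    exact ⟨⟨mm w, EE w, h1, h2, h3, h4, rfl⟩, h1⟩
  have hK : ∀ w ∈ W, ∀ w' ∈ W, (fun w => (Red hNN' r (EE w), mm w)) w
      = (fun w => (Red hNN' r (EE w), mm w)) w' → w - w' ∈ K1 hNN' r := by
    intro w hw w' hw' hc
    obtain ⟨h1, h2, h3, h4, hd, h5⟩ := hmE w hw
    obtain ⟨h1', h2', h3', h4', hd', h5'⟩ := hmE w' hw'
    have hc1 : Red hNN' r (EE w) = Red hNN' r (EE w') := congrArg Prod.fst hc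
    have hc2 : mm w = mm w' := congrArg Prod.snd hc
    rw [mem_K1_iff]
    refine ⟨⟨_, hd⟩ - ⟨_, hd'⟩, ?_, ?_⟩
    · rw [AddSubgroup.coe_sub]
      simp only
      rw [map_sub, map_sub, map_sub, hc1, hc2]
      abel
    · exact (congrArg₂ (· - ·) h5 h5' :)
  obtain ⟨m, hm, h⟩ := exists_exponent_of_finite (K1 hNN' r) W _
    (Set.Finite.prod (finite_Red_stable hNN' r hr hq hσ₀ g) (Set.finite_le_nat g))
    (fun w => (Red hNN' r (EE w), mm w)) hcT hK
  exact ⟨m, hm, fun w hw => h w hw⟩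

end General

/-- **(FIN)** -/
theorem fin_K1q (N : ℕ) [NeZero N] {q : ℕ} (hq : q.Prime) (hqN : ¬ q ∣ N)
    (A : ValuationSubring Kb) (hA : A.LiesOverPrime q) :
    ∃ m : ℕ, 0 < m ∧ ∀ w : JZero N, (∀ σ ∈ A.decompositionSubgroup ℚ, σ • w = w) →
      m • w ∈ K1q N q A :=
  fin_K1 (dvd_lvl N q) (rd A N q) (isRed_rd N hq hqN A hA) hq hA

end Fermat.Agent.S15.Red
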