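import Fermat.Agent.GR.S.R.Iface
import Fermat.Agent.GR.S.R.Cnt
import Fermat.Agent.GR.S.R.NU

/-!
# S15-RED (FIN), step 2: the balance lemma (a consequence of `IsRed.cong`)
-/

set_option autoImplicit false
set_option synthInstance.maxHeartbeats 400000

noncomputable section

namespace Fermat.Agent.S15.Red

open AlgebraicCurve ModularCurve Fermat.Agent.GR Fermat.Agent.GR.E Fermat.Agent.GR.S
  Fermat.Agent.S17.FF Fermat.Agent.GR.S.R

variable {A : ValuationSubring Kb} {E : IntermediateField Kb (LaurentSeries Kb)} [IsFF Kb E]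
  {S : Type} {r : Place Kb E → S}

theorem Balance_coe_algebraMap (c : Kb) :
    ((algebraMap Kb E c : E) : LaurentSeries Kb) = HahnSeries.C c := by
  show algebraMap Kb (LaurentSeries Kb) c = _
  rw [algebraMap_laurentSeries_eq_single]
  rfl

theorem Balance_ne_zero {a : E} (ha : IsPrim A (a : LaurentSeries Kb)) : a ≠ 0 := by
  rintro rfl
  obtain ⟨n, hn⟩ := ha.2
  apply hn
  show (0 : LaurentSeries Kb).coeff n ∈ A.nonunits
  rw [HahnSeries.coeff_zero]
  exact nu_zero

theorem Balance_ord_sub_nonneg (P : Place Kb E) {y : E} (hP : 0 ≤ P.ord y) (c : Kb) :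
    0 ≤ P.ord (y - algebraMap Kb E c) :=
  S24.Zeros.ord_nonneg_of_mem P
    (sub_mem (S24.Zeros.mem_of_ord_nonneg P hP) (P.algebraMap_mem' c))

theorem Balance_val_sub (P : Place Kb E) {y : E} (hP : 0 ≤ P.ord y) (c : Kb) :
    val P (y - algebraMap Kb E c) = val P y - c := by
  have e : y - algebraMap Kb E c = y + algebraMap Kb E (-c) := by rw [map_neg, sub_eq_add_neg]
  rw [e, val_add P hP (by rw [S24.Zeros.ord_algebraMap]), val_algebraMap, sub_eq_add_neg]

theorem Balance_ord_sub_of_neg (P : Place Kb E) {y : E} (hP : P.ord y < 0) (c : Kb) :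
    P.ord (y - algebraMap Kb E c) = P.ord y := by
  have e : y - algebraMap Kb E c = y + algebraMap Kb E (-c) := by rw [map_neg, sub_eq_add_neg]
  have hy : y ≠ 0 := by
    rintro rfl
    simp at hP
  rw [e, S24.Zeros.ord_add_eq_of_lt P (by rw [S24.Zeros.ord_algebraMap]; exact hP) hy]

/-- **balance lemma**: if `a ≡ b` are primitive, every reduction class which contains a zero of
`a / b` contains a pole of `a / b`. -/
theorem exists_pole_of_cong (hr : IsRed A E r) (a b : E) (ha : IsPrim A (a : LaurentSeries Kb))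
    (hb : IsPrim A (b : LaurentSeries Kb))
    (hab : Cong A (a : LaurentSeries Kb) (b : LaurentSeries Kb)) (P : Place Kb E)
    (hP : 0 < P.ord (a / b)) : ∃ P₁ : Place Kb E, r P₁ = r P ∧ P₁.ord (a / b) < 0 := by
  by_contra hcon
  push Not at hcon
  have h1 := hr.cong a b ha hb hab (divf (a / b)) (fun P => divf_apply _ _)
  have h2 := mapDomain_divf_apply r (a / b) (r P)
  rw [h1, Finsupp.zero_apply] at h2
  have h3 := cnt_pos_of_exists {P' | r P' = r P} (a / b) (fun P' hP' => hcon P' hP') (P := P) rfl hP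
  omega

/-- (T1) a point at which `y` takes a value in `t + 𝔪_A` has the same reduction as a point at which
`y` takes the value `t`. -/
theorem exists_val_eq_of_cong (hr : IsRed A E r) (y : E) (t : Kb)
    (hprim : ∀ c : Kb, c ∈ A → IsPrim A ((y : LaurentSeries Kb) - HahnSeries.C c)) (ht : t ∈ A)
    (P : Place Kb E) (hP : 0 ≤ P.ord y) (hval : val P y - t ∈ A.nonunits) :
    ∃ P₁ : Place Kb E, r P₁ = r P ∧ 0 < P₁.ord (y - algebraMap Kb E t) := by
  have hcoe : ∀ c : Kb, ((y - algebraMap Kb E c : E) : LaurentSeries Kb) =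
      (y : LaurentSeries Kb) - HahnSeries.C c := by
    intro c
    rw [← Balance_coe_algebraMap (E := E) c]
    rfl
  have hprim' : ∀ c : Kb, c ∈ A → IsPrim A ((y - algebraMap Kb E c : E) : LaurentSeries Kb) := by
    intro c hc
    rw [hcoe]
    exact hprim c hc
  have hvA : val P y ∈ A := by
    have := A.add_mem _ _ (nu_mem hval) ht
    rwa [sub_add_cancel] at this
  have hb := hprim' t ht
  have hb0 := Balance_ne_zero hb
  by_cases hvt : val P y = t
  · refine ⟨P, rfl, ?_⟩
    rcases (val_eq_iff P hP t).1 hvt with h | h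
    · exact absurd (sub_eq_zero.2 h) hb0
    · exact h
  · have ha := hprim' (val P y) hvA
    have ha0 := Balance_ne_zero ha
    have hab : Cong A ((y - algebraMap Kb E (val P y) : E) : LaurentSeries Kb)
        ((y - algebraMap Kb E t : E) : LaurentSeries Kb) := by
      intro n
      rw [hcoe, hcoe, HahnSeries.coeff_sub, HahnSeries.coeff_sub]
      have e : (y : LaurentSeries Kb).coeff n - (HahnSeries.C (val P y) : LaurentSeries Kb).coeff n -
          ((y : LaurentSeries Kb).coeff n - (HahnSeries.C t : LaurentSeries Kb).coeff n) =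
          -((HahnSeries.C (val P y - t) : LaurentSeries Kb).coeff n) := by
        rw [map_sub, HahnSeries.coeff_sub]
        ring
      rw [e]
      apply nu_neg
      rw [HahnSeries.C_apply, HahnSeries.coeff_single]
      split_ifs
      · exact hval
      · exact nu_zero
    have hPa : 0 < P.ord (y - algebraMap Kb E (val P y)) := by
      rcases (val_eq_iff P hP (val P y)).1 rfl with h | h
      · exact absurd (sub_eq_zero.2 h) ha0
      · exact h
    have hPb : P.ord (y - algebraMap Kb E t) = 0 := by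
      have h1 := Balance_ord_sub_nonneg P hP t
      by_contra hne
      have h2 : 0 < P.ord (y - algebraMap Kb E t) := lt_of_le_of_ne h1 (Ne.symm hne)
      have h3 := (val_eq_zero_iff P h1).2 (Or.inr h2)
      rw [Balance_val_sub P hP] at h3
      exact hvt (sub_eq_zero.1 h3)
    have hPab : 0 < P.ord ((y - algebraMap Kb E (val P y)) / (y - algebraMap Kb E t)) := by
      rw [div_eq_mul_inv, P.ord_mul ha0 (inv_ne_zero hb0), P.ord_inv, hPb]
      omega
    obtain ⟨P₁, h1, h2⟩ := exists_pole_of_cong hr _ _ ha hb hab P hPab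
    refine ⟨P₁, h1, ?_⟩
    rw [div_eq_mul_inv, P₁.ord_mul ha0 (inv_ne_zero hb0), P₁.ord_inv] at h2
    by_cases hy1 : P₁.ord y < 0
    · exfalso
      rw [Balance_ord_sub_of_neg P₁ hy1, Balance_ord_sub_of_neg P₁ hy1] at h2
      omega
    · have := Balance_ord_sub_nonneg P₁ (not_lt.1 hy1) (val P y)
      omega

/-- (T1') a point at which `y` takes a value outside `A` has the same reduction as a pole of
`y`. -/
theorem exists_pole_of_val_not_mem (hr : IsRed A E r) (y : E)
    (hint : IsInt A (y : LaurentSeries Kb)) (P : Place Kb E) (hP : 0 ≤ P.ord y)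
    (hval : val P y ∉ A) : ∃ P₁ : Place Kb E, r P₁ = r P ∧ P₁.ord y < 0 := by
  have hc : (val P y)⁻¹ ∈ A.nonunits := inv_nu_of_not_mem hval
  have hv0 : val P y ≠ 0 := by
    intro h
    apply hval
    rw [h]
    exact zero_mem A
  set c := (val P y)⁻¹ with hcdef
  have hcoe : ((1 - algebraMap Kb E c * y : E) : LaurentSeries Kb) =
      1 - c • (y : LaurentSeries Kb) := by
    rw [← HahnSeries.C_mul_eq_smul, ← Balance_coe_algebraMap (E := E) c]
    rfl
  have hone : ∀ n : ℤ, (1 : LaurentSeries Kb).coeff n ∈ A := by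
    intro n
    rw [HahnSeries.coeff_one]
    split_ifs
    · exact one_mem A
    · exact zero_mem A
  have hcy : ∀ n : ℤ, c * (y : LaurentSeries Kb).coeff n ∈ A.nonunits :=
    fun n => nu_mul_right hc (hint n)
  have ha : IsPrim A ((1 - algebraMap Kb E c * y : E) : LaurentSeries Kb) := by
    rw [hcoe]
    refine ⟨fun n => ?_, 0, ?_⟩
    · rw [HahnSeries.coeff_sub, HahnSeries.coeff_smul, smul_eq_mul]
      exact A.sub_mem (hone n) (nu_mem (hcy n))
    · rw [HahnSeries.coeff_sub, HahnSeries.coeff_smul, smul_eq_mul, HahnSeries.coeff_one,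
        if_pos rfl]
      intro h
      apply one_not_nu (V := A)
      have := nu_add h (hcy 0)
      rwa [sub_add_cancel] at this
  have hb : IsPrim A ((1 : E) : LaurentSeries Kb) := by
    refine ⟨hone, 0, ?_⟩
    show (1 : LaurentSeries Kb).coeff 0 ∉ A.nonunits
    rw [HahnSeries.coeff_one, if_pos rfl]
    exact one_not_nu
  have hab : Cong A ((1 - algebraMap Kb E c * y : E) : LaurentSeries Kb)
      ((1 : E) : LaurentSeries Kb) := by
    intro n
    rw [hcoe]
    show (1 - c • (y : LaurentSeries Kb)).coeff n - (1 : LaurentSeries Kb).coeff n ∈ A.nonunits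
    rw [HahnSeries.coeff_sub, HahnSeries.coeff_smul, smul_eq_mul, sub_sub_cancel_left]
    exact nu_neg (hcy n)
  have ha0 := Balance_ne_zero ha
  have hmem : ∀ Q : Place Kb E, 0 ≤ Q.ord y → 0 ≤ Q.ord (1 - algebraMap Kb E c * y) := by
    intro Q hQ
    exact S24.Zeros.ord_nonneg_of_mem Q (sub_mem (one_mem _)
      (mul_mem (Q.algebraMap_mem' c) (S24.Zeros.mem_of_ord_nonneg Q hQ)))
  have hPa : 0 < P.ord (1 - algebraMap Kb E c * y) := by
    have h1 : val P (1 - algebraMap Kb E c * y) = 0 := by
      have e : (1 - algebraMap Kb E c * y : E) = algebraMap Kb E 1 + algebraMap Kb E (-c) * y := by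
        rw [map_one, map_neg]
        ring
      have h0 : 0 ≤ P.ord (algebraMap Kb E (-c)) := by rw [S24.Zeros.ord_algebraMap]
      have h2 : 0 ≤ P.ord (algebraMap Kb E (-c) * y) :=
        S24.Zeros.ord_nonneg_of_mem P (mul_mem (P.algebraMap_mem' _)
          (S24.Zeros.mem_of_ord_nonneg P hP))
      rw [e, val_add P (by rw [S24.Zeros.ord_algebraMap]) h2, val_mul P h0 hP, val_algebraMap,
        val_algebraMap, hcdef]
      field_simp
      ring
    rcases (val_eq_zero_iff P (hmem P hP)).1 h1 with h | h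
    · exact absurd h ha0
    · exact h
  obtain ⟨P₁, h1, h2⟩ := exists_pole_of_cong hr _ _ ha hb hab P (by rw [div_one]; exact hPa)
  refine ⟨P₁, h1, ?_⟩
  rw [div_one] at h2
  by_contra hcon
  have := hmem P₁ (not_lt.1 hcon)
  omega

end Fermat.Agent.S15.Red
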