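import Fermat.Agent.S15.Red.Fin.Balance

/-!
# S15-RED (FIN), step 3: finitely many reduction classes of points whose `j`-invariant is
"rational over a finite field"
-/

set_option autoImplicit false
set_option synthInstance.maxHeartbeats 400000

noncomputable section

namespace Fermat.Agent.S15.Red

open AlgebraicCurve ModularCurve Fermat.Agent.GR Fermat.Agent.GR.E Fermat.Agent.GR.S
  Fermat.Agent.S17.FF Fermat.Agent.GR.S.R

theorem Classes_nu_iff (A : ValuationSubring Kb) (x : A) :
    (x : Kb) ∈ A.nonunits ↔ IsLocalRing.residue A x = 0 := by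
  rw [IsLocalRing.residue_eq_zero_iff, ValuationSubring.mem_nonunits_iff_exists_mem_maximalIdeal]
  constructor
  · rintro ⟨_, h⟩
    exact h
  · intro h
    exact ⟨x.2, h⟩

/-- lifts of the roots of `X ^ n - X` in the residue field. -/
theorem exists_finset_lifts (A : ValuationSubring Kb) (n : ℕ) (hn : 1 < n) :
    ∃ T : Finset Kb, (∀ t ∈ T, t ∈ A) ∧
      ∀ a ∈ A, a ^ n - a ∈ A.nonunits → ∃ t ∈ T, a - t ∈ A.nonunits := by
  classical
  have hne : (Polynomial.X ^ n - Polynomial.X : Polynomial (IsLocalRing.ResidueField A)) ≠ 0 :=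
    FiniteField.X_pow_card_sub_X_ne_zero _ hn
  choose lift hlift using (IsLocalRing.residue_surjective (R := A))
  refine ⟨(Polynomial.X ^ n - Polynomial.X :
    Polynomial (IsLocalRing.ResidueField A)).roots.toFinset.image (fun ρ => ((lift ρ : A) : Kb)),
    ?_, ?_⟩
  · intro t ht
    rw [Finset.mem_image] at ht
    obtain ⟨ρ, -, rfl⟩ := ht
    exact (lift ρ).2
  · intro a ha h
    have h1 : IsLocalRing.residue A ((⟨a, ha⟩ : A) ^ n - ⟨a, ha⟩) = 0 :=
      (Classes_nu_iff A _).1 h
    rw [map_sub, map_pow] at h1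
    refine ⟨_, Finset.mem_image.2 ⟨IsLocalRing.residue A ⟨a, ha⟩, ?_, rfl⟩, ?_⟩
    · rw [Multiset.mem_toFinset, Polynomial.mem_roots hne, Polynomial.IsRoot.def,
        Polynomial.eval_sub, Polynomial.eval_pow, Polynomial.eval_X]
      exact h1
    · have h2 : IsLocalRing.residue A ((⟨a, ha⟩ : A) - lift (IsLocalRing.residue A ⟨a, ha⟩)) = 0 := by
        rw [map_sub, hlift, sub_self]
      exact (Classes_nu_iff A _).2 h2

theorem isPrim_jq_sub_C (A : ValuationSubring Kb) (c : Kb) (hc : c ∈ A) :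
    IsPrim A (jqModC Kb - HahnSeries.C c) := by
  have hint : IsInt A (jqModC Kb) := by
    intro n
    rw [← coeffMap_jqModC (Int.castRingHom Kb), coeffMap_coeff]
    exact intCast_mem A _
  refine ⟨fun n => ?_, -1, ?_⟩
  · rw [HahnSeries.coeff_sub, HahnSeries.C_apply, HahnSeries.coeff_single]
    apply A.sub_mem (hint n)
    split_ifs
    · exact hc
    · exact zero_mem A
  · rw [HahnSeries.coeff_sub, HahnSeries.C_apply, HahnSeries.coeff_single, if_neg (by norm_num),
      coeff_jqModC_neg_one, sub_zero]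
    exact one_not_nu

theorem isInt_jq (A : ValuationSubring Kb) : IsInt A (jqModC Kb) := by
  intro n
  rw [← coeffMap_jqModC (Int.castRingHom Kb), coeffMap_coeff]
  exact intCast_mem A _

variable {A : ValuationSubring Kb} {E : IntermediateField Kb (LaurentSeries Kb)} [IsFF Kb E]
  {S : Type} {r : Place Kb E → S}

/-- the value of `j` at `P` is `∞`, or not integral, or reduces to a root of `X ^ n - X`. -/
def Special (A : ValuationSubring Kb) (n : ℕ) (jE : E) (P : Place Kb E) : Prop :=
  P.ord jE < 0 ∨ val P jE ∉ A ∨ val P jE ^ n - val P jE ∈ A.nonunits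

theorem finite_classes (hr : IsRed A E r) (jE : E) (hj : (jE : LaurentSeries Kb) = jqModC Kb)
    (n : ℕ) (hn : 1 < n) : {s : S | ∃ P : Place Kb E, Special A n jE P ∧ r P = s}.Finite := by
  obtain ⟨T, hTA, hT⟩ := exists_finset_lifts A n hn
  have hfin : (r '' {P | P.ord jE < 0} ∪
      ⋃ t ∈ T, r '' {P | 0 < P.ord (jE - algebraMap Kb E t)}).Finite := by
    apply Set.Finite.union
    · exact (finite_poles' jE).image r
    · exact Set.Finite.biUnion T.finite_toSet (fun t _ => (finite_zeros' _).image r)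
  apply hfin.subset
  rintro s ⟨P, hP, rfl⟩
  have hint : IsInt A (jE : LaurentSeries Kb) := by
    rw [hj]
    exact isInt_jq A
  have hprim : ∀ c : Kb, c ∈ A → IsPrim A ((jE : LaurentSeries Kb) - HahnSeries.C c) := by
    intro c hc
    rw [hj]
    exact isPrim_jq_sub_C A c hc
  by_cases h1 : P.ord jE < 0
  · exact Or.inl ⟨P, h1, rfl⟩
  have h1' := not_lt.1 h1
  by_cases h2 : val P jE ∈ A
  · have h3 : val P jE ^ n - val P jE ∈ A.nonunits := by
      rcases hP with h | h | h
      · exact absurd h h1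
      · exact absurd h2 h
      · exact h
    obtain ⟨t, htT, ht⟩ := hT _ h2 h3
    obtain ⟨P₁, e, hP₁⟩ := exists_val_eq_of_cong hr jE t hprim (hTA t htT) P h1' ht
    right
    rw [Set.mem_iUnion₂]
    exact ⟨t, htT, P₁, hP₁, e⟩
  · obtain ⟨P₁, e, hP₁⟩ := exists_pole_of_val_not_mem hr jE hint P h1' h2
    exact Or.inl ⟨P₁, hP₁, e⟩

end Fermat.Agent.S15.Red
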